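import Fermat.Agent.CarmichaelUpper.Rankin
import Fermat.Agent.PrimalityCriteria.Basic
import Mathlib.NumberTheory.Harmonic.Bounds
import Mathlib.Analysis.PSeries

/-!
# Pomerance's upper bound for the Carmichael numbers

Up to `x` there are at most `x exp (-(1 - ε) log x log log log x / log log x)` of them (Erdős 1956,
Pomerance 1981), so their reciprocals have a finite sum. With `κ` this exponential: if a prime
`p > κ` divides `n` then `n ≡ p` modulo `p (p - 1)`; otherwise `n` has a divisor `d` in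
`(x / κ², x / κ]`, and lies in one class modulo `d · lcm (p - 1)`.
-/

set_option autoImplicit false

noncomputable section

namespace FA.CarmichaelUpper

open Finset Filter
open FA.ErdosKac (primesUpTo mem_primesUpTo loglog tendsto_loglog)
open scoped Topology

/-- The lcm of the `p - 1`, `p ∣ d`. -/
def lamLcm (d : ℕ) : ℕ := d.primeFactors.lcm fun p => p - 1

/-- The Carmichael numbers up to `x`, by Korselt's criterion. -/
def korseltSet (x : ℕ) : Finset ℕ :=
  (Icc 1 x).filter fun n => 1 < n ∧ ¬n.Prime ∧ Squarefree n ∧ ∀ p ∈ n.primeFactors, p - 1 ∣ n - 1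

theorem lamLcm_pos (d : ℕ) : 0 < lamLcm d := by
  refine Nat.pos_of_ne_zero fun h => ?_
  rw [lamLcm, Finset.lcm_eq_zero_iff] at h
  obtain ⟨p, hp, h0⟩ := h
  have := (Nat.prime_of_mem_primeFactors hp).two_le
  omega

/-- `n` with a prime factor `p`: it is `p + p (p - 1) i` with `i ≥ 1`. -/
theorem card_with_prime_le {x p : ℕ} (hp : p.Prime) :
    ((korseltSet x).filter fun n => p ∣ n).card ≤ x / (p * (p - 1)) := by
  have hp1 : 0 < p - 1 := Nat.sub_pos_of_lt hp.one_lt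
  refine le_trans (card_le_card (t := (Icc 1 (x / (p * (p - 1)))).image
    fun i => p + p * (p - 1) * i) fun n hn => ?_) (card_image_le.trans (by simp))
  rw [korseltSet, mem_filter, mem_filter, mem_Icc] at hn
  obtain ⟨⟨⟨-, hnx⟩, hn1, hnp, -, hdiv⟩, m, rfl⟩ := hn
  have hm0 : 0 < m := Nat.pos_of_ne_zero fun h => by rw [h, mul_zero] at hn1; omega
  have hm1 : m ≠ 1 := fun h => hnp (by rwa [h, mul_one])
  have hd := hdiv p (Nat.mem_primeFactors.2 ⟨hp, dvd_mul_right p m, by omega⟩)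
  have h1 : p * m - 1 = (p - 1) * m + (m - 1) := by
    have h2 : p * m = (p - 1) * m + m := by
      rw [← Nat.succ_mul, Nat.succ_eq_add_one, Nat.sub_add_cancel hp.one_le]
    omega
  rw [h1, Nat.dvd_add_right (dvd_mul_right _ m)] at hd
  obtain ⟨i, hi⟩ := hd
  have hn' : p * m = p + p * (p - 1) * i := by
    obtain ⟨j, rfl⟩ : ∃ j, m = j + 1 := ⟨m - 1, by omega⟩
    rw [mul_assoc, ← hi, Nat.add_sub_cancel]
    ring
  refine mem_image.2 ⟨i, mem_Icc.2 ⟨Nat.pos_of_ne_zero fun h => by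
    rw [h, mul_zero] at hi; omega, ?_⟩, hn'.symm⟩
  rw [Nat.le_div_iff_mul_le (Nat.mul_pos hp.pos hp1), mul_comm]
  omega

/-- `n` with the divisor `d`: one class modulo `d · lamLcm d`. -/
theorem card_with_divisor_le {x d : ℕ} :
    ((korseltSet x).filter fun n => d ∣ n).card ≤ x / (d * lamLcm d) + 1 := by
  refine le_of_le_of_eq (card_le_card_of_injOn (fun n => n / (d * lamLcm d)) (fun n hn => ?_)
    fun n hn n' hn' h => ?_) (card_range _)
  · rw [mem_coe, korseltSet, mem_filter, mem_filter, mem_Icc] at hn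
    simp only [mem_coe, mem_range, Nat.lt_succ_iff]
    exact Nat.div_le_div_right hn.1.1.2
  · rw [mem_coe, korseltSet, mem_filter, mem_filter] at hn hn'
    obtain ⟨⟨-, hn1, -, -, hk⟩, hd⟩ := hn
    obtain ⟨⟨-, hn1', -, -, hk'⟩, hd'⟩ := hn'
    have hl : ∀ m, 1 < m → d ∣ m → (∀ p ∈ m.primeFactors, p - 1 ∣ m - 1) → lamLcm d ∣ m - 1 :=
      fun m hm hdm hkm => Finset.lcm_dvd fun p hp =>
        hkm p (Nat.primeFactors_mono hdm (by omega) hp)
    have hL := hl n hn1 hd hk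
    have hcop : d.Coprime (lamLcm d) := by
      refine Nat.Coprime.coprime_dvd_left hd (Nat.Coprime.coprime_dvd_right hL ?_)
      exact (Nat.coprime_self_sub_right (by omega : 1 ≤ n)).2 (Nat.coprime_one_right n)
    have hmod : n ≡ n' [MOD d * lamLcm d] := by
      refine (Nat.modEq_and_modEq_iff_modEq_mul hcop).1 ⟨?_, ?_⟩
      · exact (Nat.modEq_zero_iff_dvd.2 hd).trans (Nat.modEq_zero_iff_dvd.2 hd').symm
      · exact ((Nat.modEq_iff_dvd' hn1.le).2 hL).symm.trans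
          ((Nat.modEq_iff_dvd' hn1'.le).2 (hl n' hn1' hd' hk'))
    rw [← Nat.div_add_mod n (d * lamLcm d), ← Nat.div_add_mod n' (d * lamLcm d), hmod]
    simp only at h
    rw [h]

/-- A squarefree `n > z` with all prime factors `≤ κ` has a divisor in `(z, z κ]`. -/
theorem exists_divisor_between {n : ℕ} (hn : Squarefree n) {z κ : ℝ} (hz : 1 ≤ z) (hzn : z < n)
    (hsmooth : ∀ p ∈ n.primeFactors, (p : ℝ) ≤ κ) :
    ∃ d, d ∣ n ∧ z < d ∧ (d : ℝ) ≤ z * κ := by
  obtain ⟨S, hS⟩ : ∃ S, S = n.primeFactors.powerset.filter fun T => z < ((∏ p ∈ T, p : ℕ) : ℝ) :=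
    ⟨_, rfl⟩
  have hne : S.Nonempty := ⟨n.primeFactors, hS ▸ mem_filter.2 ⟨mem_powerset_self _, by
    rwa [Nat.prod_primeFactors_of_squarefree hn]⟩⟩
  obtain ⟨T, hT, hmin⟩ := exists_min_image S (fun T => T.card) hne
  rw [hS, mem_filter, mem_powerset] at hT
  obtain ⟨hTn, hTz⟩ := hT
  refine ⟨∏ p ∈ T, p, (prod_dvd_prod_of_subset _ _ _ hTn).trans (Nat.prod_primeFactors_dvd n),
    hTz, ?_⟩
  rcases T.eq_empty_or_nonempty with rfl | ⟨q, hq⟩
  · simp only [prod_empty, Nat.cast_one] at hTz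
    linarith
  have hnot : ((∏ p ∈ T.erase q, p : ℕ) : ℝ) ≤ z := not_lt.1 fun h => by
    have := hmin (T.erase q) (hS ▸ mem_filter.2
      ⟨mem_powerset.2 ((erase_subset _ _).trans hTn), h⟩)
    rw [card_erase_of_mem hq] at this
    have := card_pos.2 ⟨q, hq⟩
    omega
  rw [← mul_prod_erase _ _ hq, Nat.cast_mul, mul_comm]
  exact mul_le_mul hnot (hsmooth q (hTn hq)) (Nat.cast_nonneg _) (by linarith)

/-- **Pomerance's upper bound.** -/
theorem eventually_card_korseltSet_le {ε : ℝ} (hε : 0 < ε) : ∀ᶠ x : ℕ in atTop,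
    ((korseltSet x).card : ℝ) ≤
      x * Real.exp (-(1 - ε) * (Real.log x * Real.log (loglog x) / loglog x)) := by
  obtain ⟨δ, hδ⟩ : ∃ δ, δ = min (ε / 4) (1 / 4) := ⟨_, rfl⟩
  have hδ0 : 0 < δ := hδ ▸ lt_min (by linarith) (by norm_num)
  have hδε : 4 * δ ≤ ε := by linarith [hδ ▸ min_le_left (ε / 4) (1 / 4 : ℝ)]
  have hδ1 : δ ≤ 1 / 4 := hδ ▸ min_le_right _ _
  have hl : Tendsto (fun x : ℕ => Real.log x) atTop atTop :=
    Real.tendsto_log_atTop.comp tendsto_natCast_atTop_atTop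
  filter_upwards [eventually_sum_rankin_le, tendsto_rankinShift.eventually_le_const hδ0,
    (Real.tendsto_log_atTop.comp tendsto_loglog).eventually_ge_atTop 1,
    tendsto_loglog.eventually_ge_atTop 1,
    hl.eventually ((isLittleO_log_rpow_atTop (show (0 : ℝ) < 1 / 2 by norm_num)).def
      (show 0 < δ / 4 by positivity)),
    hl.eventually_ge_atTop (64 / δ ^ 2), eventually_ge_atTop 2]
    with x hrank hη hL3 hD hlog hbig hx
  simp only [Function.comp_apply] at hL3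
  obtain ⟨ℓ, hℓ⟩ : ∃ ℓ, ℓ = Real.log x := ⟨_, rfl⟩
  obtain ⟨D, hDdef⟩ : ∃ D, D = loglog x := ⟨_, rfl⟩
  obtain ⟨η, hηdef⟩ : ∃ η, η = rankinShift x := ⟨_, rfl⟩
  have hηeq : η = Real.log D / D := by rw [hηdef, rankinShift, hDdef]
  rw [← hηdef] at hrank hη
  rw [← hℓ] at hrank hlog hbig ⊢
  rw [← hDdef] at hL3 hD ⊢
  rw [mul_div_assoc ℓ, ← hηeq]
  have hx0 : (0 : ℝ) < x := Nat.cast_pos.2 (by omega)
  have hℓ0 : 0 < ℓ := hℓ ▸ Real.log_pos (Nat.one_lt_cast.2 (by omega))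
  rw [show Real.log ℓ = D by rw [hDdef, loglog, hℓ], Real.norm_of_nonneg (by linarith : 0 ≤ D),
    Real.norm_of_nonneg (Real.rpow_nonneg hℓ0.le _), ← Real.sqrt_eq_rpow] at hlog
  obtain ⟨r, hr⟩ : ∃ r, r = Real.sqrt ℓ := ⟨_, rfl⟩
  rw [← hr] at hlog hrank
  have hr0 : 0 < r := hr ▸ Real.sqrt_pos.2 hℓ0
  have hrr : r * r = ℓ := hr ▸ Real.mul_self_sqrt hℓ0.le
  have hη0 : 0 ≤ η := hηeq ▸ div_nonneg (by linarith) (by linarith)
  have hrη : 4 * r ≤ δ * (η * ℓ) := by
    rw [hηeq, div_mul_eq_mul_div, mul_div_assoc', le_div_iff₀ (by linarith)]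
    have h1 := mul_le_mul_of_nonneg_left hlog (show 0 ≤ 4 * r by linarith)
    have h2 := mul_le_mul_of_nonneg_left hL3 (show 0 ≤ δ * ℓ by positivity)
    rw [show 4 * r * (δ / 4 * r) = δ * (r * r) by ring, hrr] at h1
    linarith
  have hr8 : 8 ≤ r := by
    rw [hr, Real.le_sqrt' (by norm_num)]
    refine le_trans ?_ hbig
    rw [le_div_iff₀ (by positivity)]
    nlinarith
  obtain ⟨κ, hκ⟩ : ∃ κ, κ = Real.exp (η * ℓ) := ⟨_, rfl⟩
  have hκ1 : 1 ≤ κ := hκ ▸ Real.one_le_exp (by positivity)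
  have hκ0 : 0 < κ := by linarith
  have hηℓ : η * ℓ ≤ δ * ℓ := mul_le_mul_of_nonneg_right hη hℓ0.le
  have hexpℓ : Real.exp ℓ = x := by rw [hℓ, Real.exp_log hx0]
  have hκx : κ ^ 2 ≤ x := by
    rw [hκ, ← Real.exp_nat_mul, ← hexpℓ]
    refine Real.exp_le_exp.2 ?_
    push_cast
    have := mul_le_mul_of_nonneg_right hδ1 hℓ0.le
    linarith
  obtain ⟨z, hz⟩ : ∃ z, z = (x : ℝ) / κ ^ 2 := ⟨_, rfl⟩
  have hz1 : 1 ≤ z := hz ▸ (one_le_div (by positivity)).2 hκx
  have hzκ : z * κ = x / κ := by rw [hz]; field_simp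
  -- the three classes
  obtain ⟨A, hA⟩ : ∃ A, A = ((Icc 1 x).filter fun p : ℕ => p.Prime ∧ κ < p).biUnion fun p =>
      (korseltSet x).filter fun n => p ∣ n := ⟨_, rfl⟩
  obtain ⟨S, hS⟩ : ∃ S, S = (Icc 1 x).filter fun d : ℕ =>
      Squarefree d ∧ z < d ∧ (d : ℝ) ≤ x / κ := ⟨_, rfl⟩
  obtain ⟨B, hB⟩ : ∃ B, B = S.biUnion fun d => (korseltSet x).filter fun n => d ∣ n := ⟨_, rfl⟩
  obtain ⟨T, hT⟩ : ∃ T, T = Icc 1 ⌊(x : ℝ) / κ⌋₊ := ⟨_, rfl⟩
  have hsub : korseltSet x ⊆ T ∪ (A ∪ B) := fun n hn => by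
    have hn' := hn
    rw [korseltSet, mem_filter, mem_Icc] at hn'
    obtain ⟨⟨hn1, hnx⟩, -, -, hsq, -⟩ := hn'
    rcases le_or_gt (n : ℝ) (x / κ) with hsm | hbig
    · exact mem_union_left _ (hT ▸ mem_Icc.2 ⟨hn1, Nat.le_floor hsm⟩)
    refine mem_union_right _ ?_
    by_cases hp : ∃ p ∈ n.primeFactors, κ < (p : ℝ)
    · obtain ⟨p, hp, hpκ⟩ := hp
      obtain ⟨hpp, hpn, -⟩ := Nat.mem_primeFactors.1 hp
      refine mem_union_left _ ?_
      rw [hA, mem_biUnion]
      exact ⟨p, mem_filter.2 ⟨mem_Icc.2 ⟨hpp.one_le, (Nat.le_of_dvd hn1 hpn).trans hnx⟩, hpp,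
        hpκ⟩, mem_filter.2 ⟨hn, hpn⟩⟩
    · push Not at hp
      have hzn : z < n := lt_of_le_of_lt (by
        rw [← hzκ]; exact le_mul_of_one_le_right (by linarith) hκ1) hbig
      obtain ⟨d, hdn, hzd, hdκ⟩ := exists_divisor_between hsq hz1 hzn hp
      refine mem_union_right _ ?_
      rw [hB, mem_biUnion]
      exact ⟨d, hS ▸ mem_filter.2 ⟨mem_Icc.2 ⟨Nat.pos_of_dvd_of_pos hdn hn1,
        (Nat.le_of_dvd hn1 hdn).trans hnx⟩, hsq.squarefree_of_dvd hdn, hzd, hzκ ▸ hdκ⟩,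
        mem_filter.2 ⟨hn, hdn⟩⟩
  have hT' : (T.card : ℝ) ≤ x / κ := by
    rw [hT, Nat.card_Icc, Nat.add_sub_cancel]
    exact Nat.floor_le (by positivity)
  have hA' : (A.card : ℝ) ≤ 4 * (x / κ) := by
    refine (Nat.cast_le.2 (hA ▸ card_biUnion_le)).trans ?_
    rw [Nat.cast_sum]
    refine (sum_le_sum (g := fun p : ℕ => 2 * (x : ℝ) * ((p : ℝ) ^ 2)⁻¹) fun p hp => ?_).trans ?_
    · obtain ⟨-, hpp, -⟩ := mem_filter.1 hp
      refine (Nat.cast_le.2 (card_with_prime_le hpp)).trans (Nat.cast_div_le.trans ?_)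
      have hp2 : (2 : ℝ) ≤ p := Nat.ofNat_le_cast.2 hpp.two_le
      rw [Nat.cast_mul, Nat.cast_sub hpp.one_le, Nat.cast_one, ← div_eq_mul_inv,
        div_le_div_iff₀ (mul_pos (by linarith) (by linarith)) (by positivity)]
      have := mul_le_mul_of_nonneg_left (show (p : ℝ) ≤ 2 * ((p : ℝ) - 1) by linarith)
        (show 0 ≤ (x : ℝ) * p by positivity)
      linarith
    · rw [← mul_sum]
      refine (mul_le_mul_of_nonneg_left ((sum_le_sum_of_subset_of_nonneg (t := Ioo ⌊κ⌋₊ (x + 1))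
        (fun p hp => ?_) fun _ _ _ => by positivity).trans (sum_Ioo_inv_sq_le ⌊κ⌋₊ (x + 1)))
        (by positivity)).trans ?_
      · obtain ⟨hp, -, hpκ⟩ := mem_filter.1 hp
        exact mem_Ioo.2 ⟨(Nat.floor_lt hκ0.le).2 hpκ, Nat.lt_succ_of_le (mem_Icc.1 hp).2⟩
      · have h := (Nat.lt_floor_add_one κ).le
        rw [show 2 * (x : ℝ) * (2 / ((⌊κ⌋₊ : ℝ) + 1)) = 4 * (x / ((⌊κ⌋₊ : ℝ) + 1)) by ring]
        exact mul_le_mul_of_nonneg_left (div_le_div_of_nonneg_left hx0.le hκ0 h) (by norm_num)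
  -- the divisors
  obtain ⟨E, hE⟩ : ∃ E, E = Real.exp (-(η * ℓ) + 2 * η * (η * ℓ) + r) := ⟨_, rfl⟩
  have hH : ∑ d ∈ Icc 1 x, (d : ℝ)⁻¹ ≤ 1 + ℓ := by
    rw [hℓ]
    refine le_trans (le_of_eq ?_) (harmonic_le_one_add_log x)
    rw [harmonic_eq_sum_Icc]
    push_cast
    rfl
  have hrecip : ∑ d ∈ S, ((d : ℝ) * lamLcm d)⁻¹ ≤ (1 + ℓ) * κ⁻¹ + (1 + ℓ) * E := by
    rw [← sum_filter_add_sum_filter_not S (fun d => κ ≤ (lamLcm d : ℝ))]
    refine add_le_add ?_ ?_
    · refine (sum_le_sum (g := fun d : ℕ => (d : ℝ)⁻¹ * κ⁻¹) fun d hd => ?_).trans ?_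
      · rw [mul_inv]
        exact mul_le_mul_of_nonneg_left (inv_anti₀ hκ0 (mem_filter.1 hd).2) (by positivity)
      · rw [← sum_mul]
        refine mul_le_mul_of_nonneg_right (le_trans ?_ hH) (by positivity)
        exact sum_le_sum_of_subset_of_nonneg ((filter_subset _ _).trans
          (hS ▸ filter_subset _ _)) fun _ _ _ => by positivity
    · obtain ⟨S', hS'⟩ : ∃ S', S' = S.filter fun d => ¬κ ≤ (lamLcm d : ℝ) := ⟨_, rfl⟩
      rw [← hS']
      have hlam : ∀ d ∈ S', lamLcm d ∈ Icc 1 x := fun d hd => by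
        rw [hS', mem_filter, not_le] at hd
        refine mem_Icc.2 ⟨lamLcm_pos d, ?_⟩
        have h : (lamLcm d : ℝ) ≤ x := hd.2.le.trans ((le_self_pow₀ hκ1 two_ne_zero).trans hκx)
        exact_mod_cast h
      rw [← sum_fiberwise_of_maps_to hlam]
      refine (sum_le_sum (g := fun k : ℕ => (k : ℝ)⁻¹ * E) fun k hk => ?_).trans ?_
      · obtain ⟨hk1, hkx⟩ := mem_Icc.1 hk
        have hsumk := hrank k hk1 hkx (S'.filter fun d => lamLcm d = k) fun d hd => by
          obtain ⟨hd, hdk⟩ := mem_filter.1 hd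
          rw [hS', mem_filter, hS, mem_filter] at hd
          exact ⟨hd.1.2.1, fun p hp => hdk ▸ Finset.dvd_lcm hp⟩
        have he : E = z ^ (-η) * Real.exp r := by
          rw [hE, Real.exp_add, hz, Real.rpow_def_of_pos (by positivity),
            Real.log_div hx0.ne' (by positivity), hκ, Real.log_pow, Real.log_exp, ← hℓ]
          push_cast
          ring_nf
        rw [he]
        refine le_trans ?_ (mul_le_mul_of_nonneg_left (mul_le_mul_of_nonneg_left hsumk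
          (Real.rpow_nonneg (by linarith) _)) (by positivity))
        rw [mul_sum, mul_sum]
        refine sum_le_sum fun d hd => ?_
        obtain ⟨hd, hdk⟩ := mem_filter.1 hd
        rw [hS', mem_filter, hS, mem_filter] at hd
        have hd0 : (0 : ℝ) < d := lt_trans (by linarith) hd.1.2.2.1
        rw [hdk, mul_inv, mul_comm]
        refine mul_le_mul_of_nonneg_left ?_ (by positivity)
        calc (d : ℝ)⁻¹ = (d : ℝ) ^ (-η) * (d : ℝ) ^ (-(1 - η)) := by
              rw [← Real.rpow_add hd0, show -η + -(1 - η) = -1 by ring, Real.rpow_neg_one]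
          _ ≤ z ^ (-η) * (d : ℝ) ^ (-(1 - η)) := mul_le_mul_of_nonneg_right
              (Real.rpow_le_rpow_of_nonpos (by linarith) hd.1.2.2.1.le (by linarith))
              (Real.rpow_nonneg hd0.le _)
      · rw [← sum_mul]
        exact mul_le_mul_of_nonneg_right hH (hE ▸ Real.exp_nonneg _)
  have hB' : (B.card : ℝ) ≤ x * ((1 + ℓ) * κ⁻¹ + (1 + ℓ) * E) + x / κ := by
    refine (Nat.cast_le.2 (hB ▸ card_biUnion_le)).trans ?_
    rw [Nat.cast_sum]
    refine (sum_le_sum (g := fun d : ℕ => (x : ℝ) * ((d : ℝ) * lamLcm d)⁻¹ + 1)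
      fun d _ => ?_).trans ?_
    · refine (Nat.cast_le.2 card_with_divisor_le).trans ?_
      rw [Nat.cast_add, Nat.cast_one, ← div_eq_mul_inv, ← Nat.cast_mul]
      linarith [Nat.cast_div_le (α := ℝ) (m := x) (n := d * lamLcm d)]
    · rw [sum_add_distrib, ← mul_sum, sum_const, nsmul_eq_mul, mul_one]
      refine add_le_add (mul_le_mul_of_nonneg_left hrecip hx0.le) ?_
      refine le_trans (Nat.cast_le.2 (card_le_card (t := T) fun d hd => ?_)) hT'
      rw [hS, mem_filter] at hd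
      rw [hT]
      exact mem_Icc.2 ⟨(mem_Icc.1 hd.1).1, Nat.le_floor hd.2.2.2⟩
  have htarget : (1 + ℓ) * Real.exp (-(η * ℓ) + 2 * η * (η * ℓ) + r) * 8 ≤
      Real.exp (-(1 - ε) * (ℓ * η)) := by
    have h1 : (1 + ℓ) * 8 ≤ Real.exp (2 * r) := by
      have hq := Real.quadratic_le_exp_of_nonneg hr0.le
      have h64 : 8 * 8 ≤ r * r := mul_le_mul hr8 hr8 (by norm_num) hr0.le
      have hsq : (r * r / 2) * (r * r / 2) ≤ Real.exp r * Real.exp r :=
        mul_le_mul (by linarith) (by linarith) (by positivity) (Real.exp_nonneg _)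
      rw [hrr, ← Real.exp_add, ← two_mul] at hsq
      have := mul_le_mul_of_nonneg_right (hrr ▸ h64) hℓ0.le
      linarith
    rw [mul_right_comm]
    refine (mul_le_mul_of_nonneg_right h1 (Real.exp_nonneg _)).trans ?_
    rw [← Real.exp_add]
    refine Real.exp_le_exp.2 ?_
    have h2 : η * (η * ℓ) ≤ δ * (η * ℓ) := mul_le_mul_of_nonneg_right hη (by positivity)
    have h3 := mul_le_mul_of_nonneg_right hδε (show 0 ≤ η * ℓ by positivity)
    linarith
  have hκE : κ⁻¹ ≤ E := by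
    rw [hE, hκ, ← Real.exp_neg]
    refine Real.exp_le_exp.2 ?_
    have : 0 ≤ 2 * η * (η * ℓ) := by positivity
    linarith
  have h6 : (6 : ℝ) ≤ 6 * (1 + ℓ) := by linarith
  refine (Nat.cast_le.2 ((card_le_card hsub).trans ((card_union_le _ _).trans
    (Nat.add_le_add le_rfl (card_union_le _ _))))).trans ?_
  rw [Nat.cast_add, Nat.cast_add]
  refine le_trans ?_ (mul_le_mul_of_nonneg_left htarget hx0.le)
  rw [← hE]
  have hE0 : 0 ≤ E := hE ▸ Real.exp_nonneg _
  have hxκ : (x : ℝ) / κ ≤ x * E := by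
    rw [div_eq_mul_inv]
    exact mul_le_mul_of_nonneg_left hκE hx0.le
  have h7 := mul_le_mul_of_nonneg_left hκE (show 0 ≤ (x : ℝ) * (1 + ℓ) by positivity)
  have h8 : 0 ≤ (x : ℝ) * ℓ * E := by positivity
  linarith

/-- **The reciprocals of the Carmichael numbers have a finite sum.** -/
theorem summable_korselt :
    Summable fun n : ℕ => if 1 < n ∧ ¬n.Prime ∧ Squarefree n ∧
      (∀ p ∈ n.primeFactors, p - 1 ∣ n - 1) then (1 : ℝ) / n else 0 := by
  obtain ⟨g, hg⟩ : ∃ g : ℕ → ℝ,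
      g = fun i => ((korseltSet (2 ^ (i + 1))).card : ℝ) / 2 ^ i := ⟨_, rfl⟩
  have hg0 : ∀ i, 0 ≤ g i := fun i => by rw [hg]; positivity
  have hev : ∀ᶠ i : ℕ in atTop, g i ≤ 8 * (1 / (i : ℝ) ^ 2) := by
    have hl : Tendsto (fun x : ℕ => Real.log x) atTop atTop :=
      Real.tendsto_log_atTop.comp tendsto_natCast_atTop_atTop
    have h : ∀ᶠ x : ℕ in atTop, ((korseltSet x).card : ℝ) ≤ x / Real.log x ^ 2 := by
      filter_upwards [eventually_card_korseltSet_le (show (0 : ℝ) < 1 / 2 by norm_num),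
        tendsto_loglog.eventually_ge_atTop 1,
        (Real.tendsto_log_atTop.comp tendsto_loglog).eventually_ge_atTop 1,
        hl.eventually ((Real.isLittleO_pow_log_id_atTop (n := 2)).def
          (show (0 : ℝ) < 1 / 4 by norm_num)),
        eventually_ge_atTop 2] with x hx hD hL3 hlog h2
      simp only [Function.comp_apply] at hL3
      have hℓ0 : 0 < Real.log x := Real.log_pos (Nat.one_lt_cast.2 (by omega))
      refine hx.trans ?_
      rw [div_eq_mul_inv (x : ℝ)]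
      refine mul_le_mul_of_nonneg_left ?_ (Nat.cast_nonneg x)
      rw [← Real.exp_log hℓ0, ← Real.exp_nat_mul, ← Real.exp_neg, Real.exp_log hℓ0]
      refine Real.exp_le_exp.2 ?_
      rw [id, Real.norm_of_nonneg (sq_nonneg _), Real.norm_of_nonneg hℓ0.le, ← loglog] at hlog
      rw [← loglog]
      have h1 : 2 * loglog x ≤ 1 / 2 * (Real.log x * Real.log (loglog x) / loglog x) := by
        rw [mul_div_assoc', le_div_iff₀ (by linarith)]
        have := mul_le_mul_of_nonneg_left hL3 hℓ0.le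
        linarith
      push_cast
      linarith
    filter_upwards [((tendsto_pow_atTop_atTop_of_one_lt (one_lt_two : (1 : ℕ) < 2)).comp
      (tendsto_add_atTop_nat 1)).eventually h, eventually_ge_atTop 1] with i hi hi1
    simp only [Function.comp_apply] at hi
    rw [hg]
    dsimp only
    rw [div_le_iff₀ (by positivity)]
    refine hi.trans ?_
    rw [Nat.cast_pow, Nat.cast_ofNat, Real.log_pow, pow_succ, div_le_iff₀ (by positivity)]
    have hi0 : (1 : ℝ) ≤ i := Nat.one_le_cast.2 hi1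
    have h2 : (i : ℝ) ^ 2 / 4 ≤ (((i + 1 : ℕ) : ℝ) * Real.log 2) ^ 2 := by
      rw [show (i : ℝ) ^ 2 / 4 = ((i : ℝ) / 2) ^ 2 by ring]
      refine pow_le_pow_left₀ (by positivity) ?_ 2
      push_cast
      have := mul_le_mul_of_nonneg_left Real.log_two_gt_d9.le (show (0 : ℝ) ≤ i + 1 by positivity)
      linarith
    refine le_trans ?_ (mul_le_mul_of_nonneg_left h2 (by positivity))
    field_simp
    norm_num
  have hgs : Summable g := Summable.of_norm_bounded_eventually_nat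
    ((Real.summable_one_div_nat_pow.2 one_lt_two).mul_left 8)
    (hev.mono fun i hi => by rwa [Real.norm_of_nonneg (hg0 i)])
  refine summable_of_sum_range_le (c := ∑' i, g i) (fun n => by split_ifs <;> positivity)
    fun N => ?_
  rw [← sum_filter (fun n : ℕ => 1 < n ∧ ¬n.Prime ∧ Squarefree n ∧
    ∀ p ∈ n.primeFactors, p - 1 ∣ n - 1)]
  refine le_trans ?_ (hgs.sum_le_tsum (range (N + 1)) fun i _ => hg0 i)
  rw [← sum_fiberwise_of_maps_to (g := Nat.log 2) (t := range (N + 1)) fun n hn =>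
    mem_range.2 (Nat.lt_succ_of_le ((Nat.log_le_self 2 n).trans
      (mem_range.1 (mem_filter.1 hn).1).le))]
  refine sum_le_sum fun i _ => ?_
  rw [hg]
  dsimp only
  rw [div_eq_mul_inv, ← nsmul_eq_mul]
  refine (sum_le_card_nsmul _ _ ((2 : ℝ) ^ i)⁻¹ fun n hn => ?_).trans
    (nsmul_le_nsmul_left (by positivity) (card_le_card fun n hn => ?_))
  · obtain ⟨hn, hlog⟩ := mem_filter.1 hn
    have hn1 := (mem_filter.1 hn).2.1
    rw [one_div]
    refine inv_anti₀ (by positivity) ?_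
    rw [← hlog]
    exact_mod_cast Nat.pow_log_le_self 2 (show n ≠ 0 by omega)
  · obtain ⟨hn, hlog⟩ := mem_filter.1 hn
    obtain ⟨-, hn⟩ := mem_filter.1 hn
    rw [korseltSet, mem_filter, mem_Icc, ← hlog]
    exact ⟨⟨by omega, (Nat.lt_pow_succ_log_self one_lt_two n).le⟩, hn⟩

end FA.CarmichaelUpper

end
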