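import Fermat.Agent.MertensThird.Limit
import Fermat.Agent.ErdosKac.Main
import Mathlib.NumberTheory.ArithmeticFunction.Misc

/-!
# Squarefree `d` with all `p - 1` dividing a given `k`

Rankin's trick at the exponent `1 - η`, `η = log log log x / log log x`: for `k ≤ x` the sum of
`d ^ (η - 1)` over the squarefree `d` whose primes `p` have `p - 1 ∣ k` is at most
`exp (√(log x))`.
-/

set_option autoImplicit false

noncomputable section

namespace FA.CarmichaelUpper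

open Finset Filter
open FA.ErdosKac (primesUpTo mem_primesUpTo recipSum loglog tendsto_loglog)
open scoped Topology

/-- `log log log x / log log x`. -/
def rankinShift (x : ℕ) : ℝ := Real.log (loglog x) / loglog x

theorem tendsto_rankinShift : Tendsto rankinShift atTop (𝓝 0) :=
  (Real.isLittleO_log_id_atTop.tendsto_div_nhds_zero).comp tendsto_loglog

theorem sum_divisors_rpow_le {c : ℝ} (hc : 1 / 2 ≤ c) (k : ℕ) :
    ∑ e ∈ k.divisors, (e : ℝ) ^ (-c) ≤
      Real.exp (4 * ∑ q ∈ k.primeFactors, (q : ℝ) ^ (-c)) := by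
  induction k using Nat.recOnPrimeCoprime with
  | zero => simp
  | @prime_pow p n hp =>
    rcases Nat.eq_zero_or_pos n with rfl | hn
    · simp
    rw [Nat.primeFactors_prime_pow hn.ne' hp, sum_singleton, Nat.sum_divisors_prime_pow hp]
    obtain ⟨t, ht⟩ : ∃ t, t = (p : ℝ) ^ (-c) := ⟨_, rfl⟩
    have hp0 : (0 : ℝ) < p := Nat.cast_pos.2 hp.pos
    have ht0 : 0 ≤ t := ht ▸ Real.rpow_nonneg hp0.le _
    have ht1 : t ≤ 3 / 4 := by
      rw [ht]
      refine (Real.rpow_le_rpow_of_nonpos two_pos (Nat.ofNat_le_cast.2 hp.two_le)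
        (by linarith)).trans ((Real.rpow_le_rpow_of_exponent_le one_le_two
          (show -c ≤ -(1 / 2) by linarith)).trans ?_)
      rw [Real.rpow_neg zero_le_two, ← Real.sqrt_eq_rpow, inv_le_iff_one_le_mul₀ (by positivity)]
      have h : (4 / 3 : ℝ) ≤ Real.sqrt 2 := Real.le_sqrt_of_sq_le (by norm_num)
      linarith
    have e : ∀ i : ℕ, (((p ^ i : ℕ) : ℝ)) ^ (-c) = t ^ i := fun i => by
      rw [ht, Nat.cast_pow, ← Real.rpow_natCast, ← Real.rpow_natCast, ← Real.rpow_mul hp0.le,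
        ← Real.rpow_mul hp0.le, mul_comm]
    rw [sum_congr rfl fun i _ => e i, ← ht]
    refine le_trans ?_ (Real.add_one_le_exp (4 * t))
    rw [geom_sum_eq (by linarith : t ≠ 1), div_le_iff_of_neg (by linarith)]
    have h1 := pow_nonneg ht0 (n + 1)
    have h2 := mul_le_mul_of_nonneg_left ht1 ht0
    linarith
  | @coprime a b ha hb hab iha ihb =>
    rw [hab.primeFactors_mul, sum_union hab.disjoint_primeFactors, mul_add, Real.exp_add,
      Nat.divisors_mul]
    refine le_trans ?_ (mul_le_mul iha ihb (sum_nonneg fun e _ => by positivity)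
      (Real.exp_nonneg _))
    rw [sum_mul_sum, ← sum_product', Finset.mul_def]
    refine (sum_image_le_of_nonneg fun e _ => by positivity).trans (le_of_eq ?_)
    exact sum_congr rfl fun z _ => by
      rw [Nat.cast_mul, Real.mul_rpow (Nat.cast_nonneg _) (Nat.cast_nonneg _)]

/-- `∑ q ^ (η - 1)` over the primes dividing `k ≤ x`. -/
theorem eventually_sum_primeFactors_le : ∀ᶠ x : ℕ in atTop, ∀ k : ℕ, 1 ≤ k → k ≤ x →
    4 * ∑ q ∈ k.primeFactors, (q : ℝ) ^ (-(1 - rankinShift x)) ≤ loglog x / 2 := by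
  obtain ⟨M, hM⟩ := FA.MertensThird.exists_tendsto_recipSum
  obtain ⟨m₀, hm₀⟩ := eventually_atTop.1 (Metric.tendsto_nhds.1 hM (1 / 200) (by norm_num))
  obtain ⟨C₁, hC₁⟩ := FA.ErdosKac.exists_abs_recipSum_sub_le
  have hC0 : 0 ≤ C₁ := (abs_nonneg _).trans (hC₁ 2 le_rfl)
  have hl : Tendsto (fun x : ℕ => Real.log x) atTop atTop :=
    Real.tendsto_log_atTop.comp tendsto_natCast_atTop_atTop
  have hroot : Tendsto (fun x : ℕ => Real.log x ^ (15 / 16 : ℝ)) atTop atTop :=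
    (tendsto_rpow_atTop (by norm_num)).comp hl
  filter_upwards [tendsto_loglog.eventually_ge_atTop 100,
    tendsto_loglog.eventually ((isLittleO_log_rpow_atTop (show (0 : ℝ) < 1 / 32 by norm_num)).def
      one_pos),
    ((tendsto_rpow_atTop (show (0 : ℝ) < 1 / 32 by norm_num)).comp
      tendsto_loglog).eventually_ge_atTop (400 * (2 + C₁)),
    hroot.eventually_ge_atTop ((m₀ : ℝ) + 3), eventually_ge_atTop 3]
    with x hL2 hlog hpow hroot hx k hk hkx
  simp only [Function.comp_apply] at hpow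
  obtain ⟨ℓ, hℓ⟩ : ∃ ℓ, ℓ = Real.log x := ⟨_, rfl⟩
  obtain ⟨D, hD⟩ : ∃ D, D = loglog x := ⟨_, rfl⟩
  obtain ⟨η, hη⟩ : ∃ η, η = rankinShift x := ⟨_, rfl⟩
  rw [← hD] at hL2 hlog hpow ⊢
  rw [← hℓ] at hroot
  rw [← hη]
  have hD0 : 0 < D := by linarith
  have hℓ0 : 0 < ℓ := hℓ ▸ Real.log_pos (Nat.one_lt_cast.2 (by omega))
  have hexpD : Real.exp D = ℓ := by rw [hD, loglog, ← hℓ, Real.exp_log hℓ0]
  have hlogℓ : Real.log ℓ = D := by rw [hD, loglog, hℓ]
  have hℓD : D ≤ ℓ := by linarith [Real.add_one_le_exp D]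
  rw [Real.norm_eq_abs, Real.norm_of_nonneg (Real.rpow_nonneg hD0.le _), one_mul,
    abs_of_nonneg (Real.log_nonneg (by linarith))] at hlog
  have hηD : η * D = Real.log D := by rw [hη, rankinShift, ← hD, div_mul_cancel₀ _ hD0.ne']
  have hη0 : 0 ≤ η := by
    rw [hη, rankinShift, ← hD]
    exact div_nonneg (Real.log_nonneg (by linarith)) hD0.le
  have hη1 : η ≤ 1 := by
    rw [hη, rankinShift, ← hD, div_le_one hD0]
    exact Real.log_le_self hD0.le
  obtain ⟨T, hT⟩ : ∃ T, T = ⌊ℓ ^ (15 / 16 : ℝ)⌋₊ := ⟨_, rfl⟩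
  obtain ⟨U, hU⟩ : ∃ U, U = ⌊ℓ⌋₊ := ⟨_, rfl⟩
  have hℓr : ℓ ^ (15 / 16 : ℝ) ≤ ℓ := by
    simpa using Real.rpow_le_rpow_of_exponent_le (show 1 ≤ ℓ by linarith)
      (show (15 / 16 : ℝ) ≤ 1 by norm_num)
  have hTU : T ≤ U := hT ▸ hU ▸ Nat.floor_le_floor hℓr
  have hTm : m₀ + 3 ≤ T := hT ▸ Nat.le_floor (by push_cast; exact hroot)
  have hweight : ∀ q : ℕ, q.Prime → ∀ B : ℝ, (q : ℝ) ^ η ≤ B →
      (q : ℝ) ^ (-(1 - η)) ≤ B * (q : ℝ)⁻¹ := fun q hq B hB => by
    rw [show -(1 - η) = η - 1 by ring, Real.rpow_sub_one (Nat.cast_ne_zero.2 hq.ne_zero),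
      div_eq_mul_inv]
    exact mul_le_mul_of_nonneg_right hB (by positivity)
  have hqη : ∀ q : ℕ, 0 < q → ∀ y : ℝ, Real.log q ≤ y * D → (q : ℝ) ^ η ≤ D ^ y :=
    fun q hq y hy => by
    rw [Real.rpow_def_of_pos (Nat.cast_pos.2 hq), Real.rpow_def_of_pos hD0]
    refine Real.exp_le_exp.2 ((mul_le_mul_of_nonneg_right hy hη0).trans (le_of_eq ?_))
    rw [mul_assoc, mul_comm D η, hηD, mul_comm]
  have hsmall : ∑ q ∈ k.primeFactors.filter (fun q => q ≤ T), (q : ℝ) ^ (-(1 - η)) ≤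
      D ^ (15 / 16 : ℝ) * recipSum T := by
    rw [recipSum, mul_sum]
    refine (sum_le_sum fun q hq => ?_).trans (sum_le_sum_of_subset_of_nonneg (fun q hq =>
      mem_primesUpTo.2 ⟨Nat.prime_of_mem_primeFactors (mem_filter.1 hq).1, (mem_filter.1 hq).2⟩)
      fun q _ _ => by positivity)
    obtain ⟨hq, hqT⟩ := mem_filter.1 hq
    have hqp := Nat.prime_of_mem_primeFactors hq
    refine hweight q hqp _ (hqη q hqp.pos _ ?_)
    rw [← hlogℓ, ← Real.log_rpow hℓ0]
    exact Real.log_le_log (Nat.cast_pos.2 hqp.pos) ((Nat.cast_le.2 hqT).trans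
      (hT ▸ Nat.floor_le (Real.rpow_nonneg hℓ0.le _)))
  have hmid : ∑ q ∈ k.primeFactors.filter (fun q => T < q ∧ q ≤ U), (q : ℝ) ^ (-(1 - η)) ≤
      D * (recipSum U - recipSum T) := by
    rw [FA.MertensThird.recipSum_sub hTU, mul_sum]
    refine (sum_le_sum fun q hq => ?_).trans (sum_le_sum_of_subset_of_nonneg (fun q hq => ?_)
      fun q _ _ => by positivity)
    · obtain ⟨hq, -, hqU⟩ := mem_filter.1 hq
      have hqp := Nat.prime_of_mem_primeFactors hq
      have h := hqη q hqp.pos 1 (by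
        rw [one_mul, ← hlogℓ]
        exact Real.log_le_log (Nat.cast_pos.2 hqp.pos) ((Nat.cast_le.2 hqU).trans
          (hU ▸ Nat.floor_le hℓ0.le)))
      rw [Real.rpow_one] at h
      exact hweight q hqp _ h
    · obtain ⟨hq, hTq, hqU⟩ := mem_filter.1 hq
      rw [mem_filter, mem_Ioc]
      exact ⟨⟨hTq, hqU⟩, Nat.prime_of_mem_primeFactors hq⟩
  have hbig : ∑ q ∈ k.primeFactors.filter (fun q => U < q), (q : ℝ) ^ (-(1 - η)) ≤ 1 := by
    obtain ⟨B, hB⟩ : ∃ B, B = k.primeFactors.filter (fun q => U < q) := ⟨_, rfl⟩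
    have hqℓ : ∀ q ∈ B, ℓ ≤ (q : ℝ) := fun q hq => by
      rw [hB, mem_filter] at hq
      exact (Nat.lt_floor_add_one ℓ).le.trans (by rw [← hU]; exact_mod_cast hq.2)
    have hcard : (B.card : ℝ) * D ≤ ℓ := by
      have h1 : ∏ q ∈ B, q ∣ k :=
        (prod_dvd_prod_of_subset _ _ _ (hB ▸ filter_subset _ _)).trans (Nat.prod_primeFactors_dvd k)
      have h2 : ((∏ q ∈ B, q : ℕ) : ℝ) ≤ x :=
        Nat.cast_le.2 ((Nat.le_of_dvd (by omega) h1).trans hkx)
      rw [Nat.cast_prod] at h2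
      have h3 : ℓ ^ B.card ≤ ∏ q ∈ B, (q : ℝ) := by
        rw [← prod_const]
        exact prod_le_prod (fun q _ => hℓ0.le) hqℓ
      have h4 := Real.log_le_log (pow_pos hℓ0 _) (h3.trans h2)
      rwa [Real.log_pow, hlogℓ, ← hℓ] at h4
    rw [← hB]
    refine (sum_le_card_nsmul _ _ (ℓ ^ (-(1 - η))) fun q hq =>
      Real.rpow_le_rpow_of_nonpos hℓ0 (hqℓ q hq) (by linarith)).trans ?_
    rw [nsmul_eq_mul, Real.rpow_def_of_pos hℓ0, hlogℓ,
      show D * -(1 - η) = η * D - D by ring, hηD, Real.exp_sub, Real.exp_log hD0, hexpD,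
      mul_div_assoc', div_le_one hℓ0]
    exact hcard
  have hsplit : ∑ q ∈ k.primeFactors, (q : ℝ) ^ (-(1 - η)) ≤
      (∑ q ∈ k.primeFactors.filter (fun q => q ≤ T), (q : ℝ) ^ (-(1 - η))) +
      (∑ q ∈ k.primeFactors.filter (fun q => T < q ∧ q ≤ U), (q : ℝ) ^ (-(1 - η))) +
      ∑ q ∈ k.primeFactors.filter (fun q => U < q), (q : ℝ) ^ (-(1 - η)) := by
    rw [sum_filter, sum_filter, sum_filter, ← sum_add_distrib, ← sum_add_distrib]
    refine sum_le_sum fun q _ => ?_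
    have h0 : 0 ≤ (q : ℝ) ^ (-(1 - η)) := Real.rpow_nonneg (Nat.cast_nonneg q) _
    split_ifs <;> first | omega | linarith
  -- the two reciprocal sums
  have hT2 : 2 ≤ T := by omega
  have hlT : 0 < Real.log T := Real.log_pos (Nat.one_lt_cast.2 (by omega))
  have hlT_le : Real.log T ≤ 15 / 16 * D := by
    rw [← hlogℓ, ← Real.log_rpow hℓ0]
    exact Real.log_le_log (Nat.cast_pos.2 (by omega))
      (hT ▸ Nat.floor_le (Real.rpow_nonneg hℓ0.le _))
  have hlT_ge : 15 / 16 * D - 1 ≤ Real.log T := by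
    have hT0 : (2 : ℝ) ≤ T := Nat.ofNat_le_cast.2 hT2
    have h := Real.log_le_log (Real.rpow_pos_of_pos hℓ0 _)
      (show ℓ ^ (15 / 16 : ℝ) ≤ 2 * (T : ℝ) by
        have := (Nat.lt_floor_add_one (ℓ ^ (15 / 16 : ℝ))).le
        rw [← hT] at this
        linarith)
    rw [Real.log_rpow hℓ0, Real.log_mul two_ne_zero (by linarith), hlogℓ] at h
    linarith [Real.log_two_lt_d9]
  have hlU_le : Real.log U ≤ D := by
    rw [← hlogℓ]
    exact Real.log_le_log (Nat.cast_pos.2 (by omega)) (hU ▸ Nat.floor_le hℓ0.le)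
  have hRT : recipSum T ≤ Real.log D + C₁ := by
    have h := (abs_le.1 (hC₁ T hT2)).2
    have h2 := Real.log_le_log hlT (show Real.log T ≤ D by linarith)
    linarith
  have hdiff : recipSum U - recipSum T ≤ 1 / 11 := by
    have h1 := hm₀ U (by omega)
    have h2 := hm₀ T (by omega)
    rw [Real.dist_eq, abs_lt] at h1 h2
    have hlU : 0 < Real.log U := Real.log_pos (Nat.one_lt_cast.2 (by omega))
    have h3 : Real.log (Real.log U) - Real.log (Real.log T) ≤ 1 / 15 + 1 / 81 := by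
      rw [← Real.log_div hlU.ne' hlT.ne']
      refine (Real.log_le_sub_one_of_pos (div_pos hlU hlT)).trans ?_
      rw [sub_le_iff_le_add, div_le_iff₀ hlT]
      linarith
    linarith [h1.2, h2.1]
  have hDpow : D ^ (15 / 16 : ℝ) * recipSum T ≤ D / 400 := by
    have h1 : Real.log D + C₁ ≤ D ^ (1 / 32 : ℝ) * (2 + C₁) := by
      have h0 : (1 : ℝ) ≤ D ^ (1 / 32 : ℝ) := Real.one_le_rpow (by linarith) (by norm_num)
      have h3 := mul_le_mul_of_nonneg_right h0 hC0
      linarith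
    refine (mul_le_mul_of_nonneg_left (hRT.trans h1) (Real.rpow_nonneg hD0.le _)).trans ?_
    rw [le_div_iff₀ (by norm_num : (0 : ℝ) < 400)]
    have h4 := mul_le_mul_of_nonneg_left hpow (show 0 ≤ D ^ (15 / 16 : ℝ) * D ^ (1 / 32 : ℝ) by
      positivity)
    have h5 : D ^ (15 / 16 : ℝ) * D ^ (1 / 32 : ℝ) * D ^ (1 / 32 : ℝ) = D := by
      rw [← Real.rpow_add hD0, ← Real.rpow_add hD0]
      norm_num
    linarith
  have hmid' := hmid.trans (mul_le_mul_of_nonneg_left hdiff hD0.le)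
  linarith [hsmall.trans hDpow]

/-- **Rankin's bound.** -/
theorem eventually_sum_rankin_le : ∀ᶠ x : ℕ in atTop, ∀ k : ℕ, 1 ≤ k → k ≤ x →
    ∀ S : Finset ℕ, (∀ d ∈ S, Squarefree d ∧ ∀ p ∈ d.primeFactors, p - 1 ∣ k) →
      ∑ d ∈ S, (d : ℝ) ^ (-(1 - rankinShift x)) ≤ Real.exp (Real.sqrt (Real.log x)) := by
  filter_upwards [eventually_sum_primeFactors_le, tendsto_rankinShift.eventually_le_const
      (show (0 : ℝ) < 1 / 2 by norm_num), eventually_ge_atTop 2] with x hsum hη hx k hk hkx S hS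
  obtain ⟨c, hc⟩ : ∃ c, c = 1 - rankinShift x := ⟨_, rfl⟩
  rw [← hc]
  have hsum' := hsum k hk hkx
  rw [← hc] at hsum'
  obtain ⟨P, hP⟩ : ∃ P, P = (k.divisors.image fun e => e + 1).filter Nat.Prime := ⟨_, rfl⟩
  have hsub : ∀ d ∈ S, d.primeFactors ∈ P.powerset := fun d hd => by
    rw [mem_powerset, hP]
    intro p hp
    have hpp := Nat.prime_of_mem_primeFactors hp
    refine mem_filter.2 ⟨mem_image.2 ⟨p - 1, Nat.mem_divisors.2 ⟨(hS d hd).2 p hp, by omega⟩,
      Nat.sub_add_cancel hpp.one_le⟩, hpp⟩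
  have h1 : ∑ d ∈ S, (d : ℝ) ^ (-c) ≤ ∏ p ∈ P, ((p : ℝ) ^ (-c) + 1) := by
    rw [prod_add]
    refine le_trans (le_of_eq ?_) (sum_le_sum_of_subset_of_nonneg (s := S.image Nat.primeFactors)
      (image_subset_iff.2 hsub) fun T _ _ => mul_nonneg (prod_nonneg fun p _ => by positivity)
        (prod_nonneg fun p _ => zero_le_one))
    rw [sum_image fun a ha b hb e => by
      rw [← Nat.prod_primeFactors_of_squarefree (hS a ha).1, e,
        Nat.prod_primeFactors_of_squarefree (hS b hb).1]]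
    refine sum_congr rfl fun d hd => ?_
    rw [prod_const_one, mul_one, Real.finsetProd_rpow _ _ (fun p _ => Nat.cast_nonneg p),
      ← Nat.cast_prod, Nat.prod_primeFactors_of_squarefree (hS d hd).1]
  refine h1.trans ((prod_le_prod (g := fun p : ℕ => Real.exp ((p : ℝ) ^ (-c)))
    (fun p _ => by positivity) fun p _ => Real.add_one_le_exp ((p : ℝ) ^ (-c))).trans ?_)
  rw [← Real.exp_sum]
  refine Real.exp_le_exp.2 ?_
  have h2 : ∑ p ∈ P, (p : ℝ) ^ (-c) ≤ ∑ e ∈ k.divisors, (e : ℝ) ^ (-c) := by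
    refine (sum_le_sum_of_subset_of_nonneg (hP ▸ filter_subset _ _)
      fun p _ _ => by positivity).trans ?_
    rw [sum_image fun a _ b _ e => Nat.succ_injective e]
    refine sum_le_sum fun e he => Real.rpow_le_rpow_of_nonpos
      (Nat.cast_pos.2 (Nat.pos_of_mem_divisors he)) (Nat.cast_le.2 (Nat.le_succ e)) ?_
    rw [hc]
    linarith
  refine h2.trans ((sum_divisors_rpow_le (by rw [hc]; linarith) k).trans ?_)
  rw [Real.sqrt_eq_rpow, Real.rpow_def_of_pos (Real.log_pos (Nat.one_lt_cast.2 (by omega)))]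
  refine Real.exp_le_exp.2 (hsum'.trans (le_of_eq ?_))
  rw [loglog]
  ring

end FA.CarmichaelUpper

end
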